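import Fermat.Agent.Discrepancy.Fejer
import Mathlib.MeasureTheory.Function.Floor
import Mathlib.Analysis.Real.Pi.Bounds

/-!
# The Erdős-Turán inequality

`#{n < N : {x n} ∈ [a, b)} / N - (b - a)` is the difference of two values of the mean sawtooth
`t ↦ (1 / N) ∑ ({x n - t} - 1 / 2)`, which decreases at most with slope one. Smoothing it by the
Fejér kernel at a translate of a near maximum bounds it by exponential sums.
-/

set_option autoImplicit false

noncomputable section

namespace FA.Discrepancy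

open Finset MeasureTheory
open FA.ThreePrimes (eAdd eAdd_add conj_eAdd norm_eAdd)
open scoped ComplexConjugate

variable (x : ℕ → ℝ) (N : ℕ)

theorem intervalIntegrable_ofReal {f : ℝ → ℝ} {a b : ℝ} (h : IntervalIntegrable f volume a b) :
    IntervalIntegrable (fun u => (f u : ℂ)) volume a b :=
  ⟨h.1.ofReal, h.2.ofReal⟩

theorem intervalIntegrable_saw (c a b : ℝ) :
    IntervalIntegrable (fun u => Int.fract (c - u) - 1 / 2) volume a b := by
  have hm : Measurable fun u : ℝ => c - u := measurable_id.const_sub c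
  refine intervalIntegrable_of_bounded (hm.fract.sub_const _) (M := 1) (fun u => ?_) a b
  have := Int.fract_nonneg (c - u)
  have := Int.fract_lt_one (c - u)
  rw [abs_le]
  constructor <;> linarith

/-- The number of `n < N` with fractional part of `x n` in `[a, b)`. -/
def countIco (a b : ℝ) : ℕ := #((range N).filter fun n => Int.fract (x n) ∈ Set.Ico a b)

/-- The absolute exponential mean at frequency `h`. -/
def expMean (h : ℕ) : ℝ := ‖∑ n ∈ range N, eAdd ((h : ℝ) * x n)‖ / N

/-- The mean sawtooth. -/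
def meanSaw (t : ℝ) : ℝ := (∑ n ∈ range N, (Int.fract (x n - t) - 1 / 2)) / N

theorem fract_sub_sub_fract_sub {y a b : ℝ} (ha : 0 ≤ a) (hab : a ≤ b) (hb : b ≤ 1) :
    Int.fract (y - b) - Int.fract (y - a) =
      (if Int.fract y ∈ Set.Ico a b then 1 else 0) - (b - a) := by
  have key : ∀ s : ℝ, 0 ≤ s → s ≤ 1 →
      Int.fract (y - s) = Int.fract y - s + if Int.fract y < s then 1 else 0 := by
    intro s h0 h1
    have hf0 := Int.fract_nonneg y
    have hf1 := Int.fract_lt_one y
    rw [show y - s = Int.fract y - s + (⌊y⌋ : ℤ) by rw [Int.fract]; ring, Int.fract_add_intCast]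
    split_ifs with h
    · rw [← Int.fract_add_one, Int.fract_eq_self.2 ⟨by linarith, by linarith⟩]
    · rw [Int.fract_eq_self.2 ⟨by linarith, by linarith⟩, add_zero]
  rw [key b (ha.trans hab) hb, key a ha (hab.trans hb)]
  simp only [Set.mem_Ico]
  rcases lt_or_ge (Int.fract y) a with h | h
  · rw [if_pos (h.trans_le hab), if_pos h, if_neg (fun h' => h.not_ge h'.1)]
    ring
  · rw [if_neg (not_lt.2 h)]
    rcases lt_or_ge (Int.fract y) b with h2 | h2
    · rw [if_pos h2, if_pos ⟨h, h2⟩]
      ring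
    · rw [if_neg (not_lt.2 h2), if_neg (fun h' => h2.not_gt h'.2)]
      ring

variable {x N}

theorem countIco_sub_eq (hN : 0 < N) {a b : ℝ} (ha : 0 ≤ a) (hab : a ≤ b) (hb : b ≤ 1) :
    (countIco x N a b : ℝ) / N - (b - a) = meanSaw x N b - meanSaw x N a := by
  have hN' : (N : ℝ) ≠ 0 := Nat.cast_ne_zero.2 hN.ne'
  rw [meanSaw, meanSaw, ← sub_div, ← sum_sub_distrib]
  simp only [sub_sub_sub_cancel_right, fract_sub_sub_fract_sub ha hab hb, countIco]
  rw [sum_sub_distrib, sum_boole, sum_const, card_range, nsmul_eq_mul, sub_div,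
    mul_div_cancel_left₀ _ hN']

theorem abs_meanSaw_le (t : ℝ) : |meanSaw x N t| ≤ 1 / 2 := by
  rw [meanSaw, abs_div, Nat.abs_cast]
  refine div_le_of_le_mul₀ (Nat.cast_nonneg _) (by norm_num)
    ((abs_sum_le_sum_abs _ _).trans ((sum_le_card_nsmul _ _ (1 / 2) fun n _ => ?_).trans_eq
      (by simp [mul_comm])))
  have := Int.fract_nonneg (x n - t)
  have := Int.fract_lt_one (x n - t)
  rw [abs_le]
  constructor <;> linarith

theorem measurable_meanSaw : Measurable (meanSaw x N) :=
  (Finset.measurable_sum _ fun _ _ =>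
    ((measurable_fract.comp (measurable_const.sub measurable_id)).sub_const _)).div_const _

theorem meanSaw_sub_le (hN : 0 < N) (t : ℝ) {s : ℝ} (hs : 0 ≤ s) :
    meanSaw x N t - s ≤ meanSaw x N (t + s) := by
  have hN' : (0 : ℝ) < N := Nat.cast_pos.2 hN
  rw [meanSaw, meanSaw, div_sub' hN'.ne', div_le_div_iff_of_pos_right hN',
    show (N : ℝ) * s = ∑ _n ∈ range N, s by simp, ← sum_sub_distrib]
  refine sum_le_sum fun n _ => ?_
  have h : (⌊x n - (t + s)⌋ : ℝ) ≤ ⌊x n - t⌋ := by
    exact_mod_cast Int.floor_le_floor (show x n - (t + s) ≤ x n - t by linarith)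
  rw [Int.fract, Int.fract]
  linarith

theorem expMean_nonneg (h : ℕ) : 0 ≤ expMean x N h := by
  rw [expMean]
  positivity

theorem norm_sum_eAdd_natAbs (m : ℤ) :
    ‖∑ n ∈ range N, eAdd ((m : ℝ) * x n)‖ = ‖∑ n ∈ range N, eAdd ((m.natAbs : ℝ) * x n)‖ := by
  rcases Int.natAbs_eq m with h | h
  · conv_lhs => rw [h]
    simp
  · conv_lhs => rw [h]
    rw [← RCLike.norm_conj, map_sum]
    simp [conj_eAdd]

/-- The smoothed sawtooth at one frequency. -/
theorem norm_integral_meanSaw_mul_eAdd_le (t : ℝ) {m : ℤ} (hm : m ≠ 0) :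
    ‖∫ u in (-(1 / 2) : ℝ)..(1 / 2), (meanSaw x N (t + u) : ℂ) * eAdd ((m : ℝ) * u)‖ ≤
      expMean x N m.natAbs / m.natAbs / (2 * Real.pi) := by
  have hi : ∀ n ∈ range N, IntervalIntegrable
      (fun u : ℝ => ((Int.fract (x n - t - u) - 1 / 2 : ℝ) : ℂ) * eAdd ((m : ℝ) * u)) volume
      (-(1 / 2)) (1 / 2) := fun n _ =>
    IntervalIntegrable.mul_continuousOn
      (intervalIntegrable_ofReal (intervalIntegrable_saw (x n - t) _ _)) (by fun_prop)
  have e : ∀ u : ℝ, (meanSaw x N (t + u) : ℂ) * eAdd ((m : ℝ) * u) = (N : ℂ)⁻¹ *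
      ∑ n ∈ range N, ((Int.fract (x n - t - u) - 1 / 2 : ℝ) : ℂ) * eAdd ((m : ℝ) * u) := fun u => by
    rw [meanSaw, ← sum_mul]
    simp only [sub_add_eq_sub_sub]
    push_cast
    ring
  rw [intervalIntegral.integral_congr fun u _ => e u, intervalIntegral.integral_const_mul,
    intervalIntegral.integral_finsetSum hi]
  simp only [norm_integral_saw_mul_eAdd _ hm]
  rw [← sum_div, norm_mul, norm_div, norm_inv, Complex.norm_natCast,
    sum_congr rfl fun n _ => show eAdd ((m : ℝ) * (x n - t)) =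
      eAdd (-((m : ℝ) * t)) * eAdd ((m : ℝ) * x n) by rw [← eAdd_add]; ring_nf,
    ← mul_sum, norm_mul, norm_eAdd, one_mul, norm_sum_eAdd_natAbs, expMean]
  rw [norm_neg, norm_mul, norm_mul, norm_mul, Complex.norm_intCast, Complex.norm_two,
    Complex.norm_real, Real.norm_eq_abs, abs_of_pos Real.pi_pos, Complex.norm_I, mul_one,
    Nat.cast_natAbs, Int.cast_abs]
  exact le_of_eq (by ring)

theorem sum_erase_dist_le {F : ℕ → ℝ} (hF : ∀ h, 0 ≤ F h) {H j : ℕ} (hj : j ≤ H) :
    ∑ k ∈ (range (H + 1)).erase j, F (((j : ℤ) - k).natAbs) ≤ 2 * ∑ h ∈ Icc 1 H, F h := by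
  rw [← sum_fiberwise_of_maps_to (g := fun k : ℕ => ((j : ℤ) - k).natAbs) (t := Icc 1 H)
    fun k hk => by rw [mem_erase, mem_range] at hk; rw [mem_Icc]; omega, mul_sum]
  refine sum_le_sum fun h _ => ?_
  rw [sum_congr rfl fun k hk => by rw [(mem_filter.1 hk).2], sum_const, nsmul_eq_mul]
  refine mul_le_mul_of_nonneg_right ?_ (hF h)
  refine (Nat.cast_le.2 (card_le_card (t := {j + h, j - h}) fun k hk => ?_)).trans ?_
  · rw [mem_filter] at hk
    rw [mem_insert, mem_singleton]
    omega
  · exact_mod_cast card_le_two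

/-- The smoothed mean sawtooth against the exponential means. -/
theorem abs_integral_meanSaw_mul_fejer_le (t : ℝ) (H : ℕ) :
    |∫ u in (-(1 / 2) : ℝ)..(1 / 2), meanSaw x N (t + u) * fejer H u| ≤
      (∑ h ∈ Icc 1 H, expMean x N h / h) / Real.pi := by
  rw [← Real.norm_eq_abs, ← Complex.norm_real, ← intervalIntegral.integral_ofReal]
  have hint : ∀ m : ℝ, IntervalIntegrable
      (fun u : ℝ => (meanSaw x N (t + u) : ℂ) * eAdd (m * u)) volume (-(1 / 2)) (1 / 2) := fun m =>
    IntervalIntegrable.mul_continuousOn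
      (intervalIntegrable_ofReal <| intervalIntegrable_of_bounded
        (f := fun u => meanSaw x N (t + u))
        (measurable_meanSaw.comp (measurable_const.add measurable_id))
        (fun u => abs_meanSaw_le _) _ _) (by fun_prop)
  have hdiag : ∫ u in (-(1 / 2) : ℝ)..(1 / 2), (meanSaw x N (t + u) : ℂ) * eAdd (0 * u) = 0 := by
    simp only [zero_mul, FA.ThreePrimes.eAdd_zero, mul_one]
    rw [intervalIntegral.integral_ofReal, Complex.ofReal_eq_zero]
    simp only [meanSaw, intervalIntegral.integral_div, sub_add_eq_sub_sub]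
    rw [intervalIntegral.integral_finsetSum fun n _ => intervalIntegrable_saw (x n - t) _ _]
    refine div_eq_zero_iff.2 (Or.inl (sum_eq_zero fun n _ => ?_))
    rw [intervalIntegral.integral_comp_sub_left (fun v => Int.fract v - 1 / 2) (x n - t),
      show x n - t - -(1 / 2) = x n - t - 1 / 2 + 1 by ring,
      Function.Periodic.intervalIntegral_add_eq (fun v => by simp [Int.fract_add_one])
        (x n - t - 1 / 2) 0, zero_add,
      intervalIntegral.integral_congr_ae (g := fun v => v - 1 / 2) (by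
        filter_upwards [Measure.ae_ne volume (1 : ℝ)] with v hv1 hv
        rw [Set.uIoc_of_le zero_le_one] at hv
        rw [Int.fract_eq_self.2 ⟨hv.1.le, lt_of_le_of_ne hv.2 hv1⟩])]
    norm_num [intervalIntegral.integral_sub, intervalIntegral.intervalIntegrable_id]
  have e : ∀ u : ℝ, ((meanSaw x N (t + u) * fejer H u : ℝ) : ℂ) = ((H : ℂ) + 1)⁻¹ *
      ∑ j ∈ range (H + 1), ∑ k ∈ range (H + 1),
        (meanSaw x N (t + u) : ℂ) * eAdd (((j : ℝ) - k) * u) := fun u => by
    rw [Complex.ofReal_mul, fejer_eq]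
    simp only [← mul_sum]
    ring
  rw [intervalIntegral.integral_congr fun u _ => e u, intervalIntegral.integral_const_mul,
    intervalIntegral.integral_finsetSum (f := fun (j : ℕ) (u : ℝ) =>
      ∑ k ∈ range (H + 1), (meanSaw x N (t + u) : ℂ) * eAdd (((j : ℝ) - k) * u)) fun j _ =>
      (IntervalIntegrable.sum (range (H + 1)) fun k _ => hint ((j : ℝ) - (k : ℕ))).congr
        fun u _ => by simp only [Finset.sum_apply]]
  rw [norm_mul, norm_inv, show ‖(H : ℂ) + 1‖ = (H : ℝ) + 1 by
    rw [← Nat.cast_one, ← Nat.cast_add, Complex.norm_natCast, Nat.cast_add, Nat.cast_one]]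
  rw [inv_mul_le_iff₀ (by positivity)]
  refine (norm_sum_le _ _).trans ((sum_le_card_nsmul _ _
    ((∑ h ∈ Icc 1 H, expMean x N h / h) / Real.pi) fun j hj => ?_).trans_eq (by simp))
  rw [intervalIntegral.integral_finsetSum (f := fun (k : ℕ) (u : ℝ) =>
      (meanSaw x N (t + u) : ℂ) * eAdd (((j : ℝ) - k) * u)) fun k _ => hint ((j : ℝ) - k),
    ← add_sum_erase _ _ hj, sub_self, hdiag, zero_add]
  refine (norm_sum_le _ _).trans ((sum_le_sum (g := fun k : ℕ => expMean x N ((j : ℤ) - k).natAbs /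
    ((j : ℤ) - k).natAbs / (2 * Real.pi)) fun k hk => ?_).trans ?_)
  · have := norm_integral_meanSaw_mul_eAdd_le (x := x) (N := N) t (m := (j : ℤ) - k)
      (by have := (mem_erase.1 hk).1; omega)
    push_cast at this
    exact this
  · refine (sum_erase_dist_le (F := fun h => expMean x N h / h / (2 * Real.pi))
      (fun h => by have := expMean_nonneg (x := x) (N := N) h; positivity)
      (Nat.le_of_lt_succ (mem_range.1 hj))).trans_eq ?_
    rw [← sum_div]
    ring

/-- **The Erdős-Turán inequality.** -/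
theorem erdos_turan (hN : 0 < N) (H : ℕ) {a b : ℝ} (ha : 0 ≤ a) (hab : a ≤ b) (hb : b ≤ 1) :
    |(countIco x N a b : ℝ) / N - (b - a)| ≤
      100 / ((H : ℝ) + 1) + 2 * ∑ h ∈ Icc 1 H, expMean x N h / h := by
  set E := (∑ h ∈ Icc 1 H, expMean x N h / h) / Real.pi with hE
  obtain ⟨δ, hδdef⟩ : ∃ δ, δ = 8 / ((H : ℝ) + 1) := ⟨_, rfl⟩
  have hδ : 0 < δ := by rw [hδdef]; positivity
  have hw : Real.pi / δ ≤ ((H : ℝ) + 1) / 2 := by
    rw [hδdef, div_div_eq_mul_div, div_le_div_iff₀ (by norm_num) two_pos]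
    nlinarith [Real.pi_le_four, show (0 : ℝ) ≤ H from Nat.cast_nonneg H]
  set M := sSup (Set.range fun t => |meanSaw x N t|) with hM
  have hbdd : BddAbove (Set.range fun t => |meanSaw x N t|) :=
    ⟨1 / 2, by rintro _ ⟨t, rfl⟩; exact abs_meanSaw_le t⟩
  have hle : ∀ t, |meanSaw x N t| ≤ M := fun t => le_csSup hbdd ⟨t, rfl⟩
  have hM0 : 0 ≤ M := (abs_nonneg _).trans (hle 0)
  have hbound : M ≤ 2 * E + 3 * δ := by
    refine le_of_forall_pos_le_add fun η hη => ?_
    obtain ⟨_, ⟨t₀, rfl⟩, ht₀⟩ := exists_lt_of_lt_csSup (Set.range_nonempty _)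
      (show M - η / 2 < M by linarith)
    have hE0 : 0 ≤ E := div_nonneg (sum_nonneg fun h _ => by
      have := expMean_nonneg (x := x) (N := N) h
      positivity) Real.pi_pos.le
    rcases lt_or_ge (M - η / 2 - 2 * δ + M) 0 with hneg | hLM
    · linarith
    simp only at ht₀
    rcases le_total 0 (meanSaw x N t₀) with hs | hs
    · rw [abs_of_nonneg hs] at ht₀
      have h1 := le_smoothed (g := fun u => meanSaw x N (t₀ + δ + u))
        (measurable_meanSaw.comp (measurable_const.add measurable_id)) hδ (fun u => hle _)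
        (L := M - η / 2 - 2 * δ) (fun u hu => ?_) hLM H hw
      · have h2 := (abs_le.1 (abs_integral_meanSaw_mul_fejer_le (x := x) (N := N) (t₀ + δ) H)).2
        linarith
      · have h3 := meanSaw_sub_le (x := x) hN t₀ (s := δ + u) (by linarith [(abs_le.1 hu).1])
        rw [← add_assoc] at h3
        linarith [(abs_le.1 hu).2]
    · rw [abs_of_nonpos hs] at ht₀
      have h1 := le_smoothed (g := fun u => -meanSaw x N (t₀ - δ + u))
        (measurable_meanSaw.comp (measurable_const.add measurable_id)).neg hδ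
        (fun u => by rw [abs_neg]; exact hle _)
        (L := M - η / 2 - 2 * δ) (fun u hu => ?_) hLM H hw
      · have h2 := (abs_le.1 (abs_integral_meanSaw_mul_fejer_le (x := x) (N := N) (t₀ - δ) H)).1
        simp only [neg_mul, intervalIntegral.integral_neg] at h1
        linarith
      · have h3 := meanSaw_sub_le (x := x) hN (t₀ - δ + u) (s := δ - u)
          (by linarith [(abs_le.1 hu).2])
        rw [show t₀ - δ + u + (δ - u) = t₀ by ring] at h3
        linarith [(abs_le.1 hu).1]
  rw [countIco_sub_eq hN ha hab hb]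
  refine (abs_sub _ _).trans ((add_le_add ((hle b).trans hbound) ((hle a).trans hbound)).trans ?_)
  have h4 : 4 * E ≤ 2 * ∑ h ∈ Icc 1 H, expMean x N h / h := by
    rw [hE, ← mul_div_assoc, div_le_iff₀ Real.pi_pos]
    have : 0 ≤ ∑ h ∈ Icc 1 H, expMean x N h / h := sum_nonneg fun h _ => by
      have := expMean_nonneg (x := x) (N := N) h
      positivity
    nlinarith [Real.pi_gt_three]
  have h5 : 6 * δ ≤ 100 / ((H : ℝ) + 1) := by
    rw [hδdef, ← mul_div_assoc]
    exact div_le_div_of_nonneg_right (by norm_num) (by positivity)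
  linarith

end FA.Discrepancy
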