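import Fermat.Agent.ThreePrimes.Exponential
import Mathlib.Analysis.SpecialFunctions.Integrals.Basic
import Mathlib.MeasureTheory.Integral.IntervalIntegral.Periodic

/-!
# Smoothing by the Fejér kernel

The Fejér kernel of degree `H` has integral `1` over a period and is at most `1 / (4 (H + 1) u ^ 2)`
at `u`. Its product with a translate of the sawtooth `fract y - 1 / 2` has integral `O (1 / h)` at
the frequency `h`.
-/

set_option autoImplicit false

noncomputable section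

namespace FA.Discrepancy

open Finset MeasureTheory
open FA.ThreePrimes (eAdd eAdd_add eAdd_zero norm_eAdd eAdd_intCast conj_eAdd nearDist
  nearDist_eq_abs four_nearDist_le eAdd_nat_mul)
open scoped ComplexConjugate

/-- The Fejér kernel. -/
def fejer (H : ℕ) (u : ℝ) : ℝ := ((H : ℝ) + 1)⁻¹ * ‖∑ j ∈ range (H + 1), eAdd (j * u)‖ ^ 2

theorem fejer_nonneg (H : ℕ) (u : ℝ) : 0 ≤ fejer H u := by
  rw [fejer]
  positivity

@[fun_prop]
theorem continuous_eAdd : Continuous eAdd := by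
  unfold FA.ThreePrimes.eAdd
  fun_prop

theorem continuous_fejer (H : ℕ) : Continuous (fejer H) := by
  unfold fejer
  fun_prop

theorem fejer_eq (H : ℕ) (u : ℝ) : (fejer H u : ℂ) =
    ((H : ℂ) + 1)⁻¹ * ∑ j ∈ range (H + 1), ∑ k ∈ range (H + 1), eAdd (((j : ℝ) - k) * u) := by
  rw [fejer, Complex.ofReal_mul, Complex.ofReal_pow, ← Complex.mul_conj', map_sum, sum_mul_sum]
  push_cast
  congr 1
  refine sum_congr rfl fun j _ => sum_congr rfl fun k _ => ?_
  rw [conj_eAdd, ← eAdd_add, sub_mul, sub_eq_add_neg]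

theorem fejer_le {H : ℕ} {u δ : ℝ} (hu : |u| ≤ 1 / 2) (hδ : 0 ≤ δ) (h : δ < |u|) :
    fejer H u ≤ (2 * ((H : ℝ) + 1) * (u ^ 2 + δ ^ 2))⁻¹ := by
  have hu0 : 0 < |u| := hδ.trans_lt h
  have h4 : 4 * |u| ≤ ‖eAdd u - 1‖ := nearDist_eq_abs hu ▸ four_nearDist_le u
  have hgeom : ‖∑ j ∈ range (H + 1), eAdd (j * u)‖ * (4 * |u|) ≤ 2 := by
    refine (mul_le_mul_of_nonneg_left h4 (norm_nonneg _)).trans ?_
    rw [← norm_mul, sum_congr rfl fun j _ => eAdd_nat_mul j u, geom_sum_mul]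
    refine (norm_sub_le _ _).trans ?_
    rw [norm_pow, norm_eAdd, one_pow, norm_one]
    norm_num
  rw [fejer]
  set X := ‖∑ j ∈ range (H + 1), eAdd (j * u)‖
  have hX : X * |u| ≤ 1 / 2 := by linarith
  have hX0 : 0 ≤ X := norm_nonneg _
  have h2 : X ^ 2 * u ^ 2 ≤ 1 / 4 := by
    rw [← sq_abs u, ← mul_pow]
    exact (pow_le_pow_left₀ (by positivity) hX 2).trans_eq (by norm_num)
  have hδu : δ ^ 2 ≤ u ^ 2 := (sq_le_sq.2 (by rw [abs_of_nonneg hδ]; exact h.le))
  have hpos : 0 < 2 * ((H : ℝ) + 1) * (u ^ 2 + δ ^ 2) := by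
    have : 0 < u ^ 2 := sq_abs u ▸ pow_pos hu0 2
    positivity
  rw [inv_eq_one_div (2 * ((H : ℝ) + 1) * (u ^ 2 + δ ^ 2)), le_div_iff₀ hpos]
  calc ((H : ℝ) + 1)⁻¹ * X ^ 2 * (2 * ((H : ℝ) + 1) * (u ^ 2 + δ ^ 2))
      = 2 * (X ^ 2 * (u ^ 2 + δ ^ 2)) := by field_simp
    _ ≤ 2 * (X ^ 2 * (u ^ 2 + u ^ 2)) := by gcongr
    _ ≤ 1 := by linarith

theorem integral_eAdd (m : ℤ) :
    ∫ u in (-(1 / 2) : ℝ)..(1 / 2), eAdd ((m : ℝ) * u) = if m = 0 then 1 else 0 := by
  split_ifs with h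
  · subst h
    simp [intervalIntegral.integral_const]
    norm_num
  · have hc : 2 * (Real.pi : ℂ) * m * Complex.I ≠ 0 := by
      simp [Real.pi_ne_zero, h, Complex.I_ne_zero]
    have e : (fun u : ℝ => eAdd ((m : ℝ) * u)) =
        fun u : ℝ => Complex.exp (2 * (Real.pi : ℂ) * m * Complex.I * u) := by
      funext u
      rw [FA.ThreePrimes.eAdd]
      push_cast
      ring_nf
    rw [e, integral_exp_mul_complex hc]
    have : Complex.exp (2 * (Real.pi : ℂ) * m * Complex.I * (1 / 2 : ℝ)) =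
        Complex.exp (2 * (Real.pi : ℂ) * m * Complex.I * (-(1 / 2) : ℝ)) := by
      rw [Complex.exp_eq_exp_iff_exists_int]
      exact ⟨m, by push_cast; ring⟩
    rw [this, sub_self, zero_div]

theorem integral_fejer (H : ℕ) : ∫ u in (-(1 / 2) : ℝ)..(1 / 2), fejer H u = 1 := by
  have h : ((∫ u in (-(1 / 2) : ℝ)..(1 / 2), fejer H u : ℝ) : ℂ) = 1 := by
    rw [← intervalIntegral.integral_ofReal]
    simp only [fejer_eq]
    rw [intervalIntegral.integral_const_mul, intervalIntegral.integral_finsetSum fun j _ => by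
      exact (Continuous.intervalIntegrable (by fun_prop) _ _)]
    have e : ∀ j ∈ range (H + 1), ∫ u in (-(1 / 2) : ℝ)..(1 / 2),
        ∑ k ∈ range (H + 1), eAdd (((j : ℝ) - k) * u) = 1 := by
      intro j hj
      rw [intervalIntegral.integral_finsetSum fun k _ => by
        exact (Continuous.intervalIntegrable (by fun_prop) _ _)]
      rw [sum_eq_single j (fun k _ hk => ?_) (fun h => absurd hj h)]
      · simpa using integral_eAdd 0
      · have := integral_eAdd ((j : ℤ) - k)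
        rw [if_neg (by omega)] at this
        push_cast at this
        exact this
    rw [sum_congr rfl e, sum_const, card_range, nsmul_eq_mul, mul_one, Nat.cast_add, Nat.cast_one]
    exact inv_mul_cancel₀ (by exact_mod_cast Nat.succ_ne_zero H)
  exact_mod_cast h

theorem integral_inv_sq_add_le {δ : ℝ} (hδ : 0 < δ) :
    ∫ u in (-(1 / 2) : ℝ)..(1 / 2), (u ^ 2 + δ ^ 2)⁻¹ ≤ Real.pi / δ := by
  have hd : ∀ u ∈ Set.uIcc (-(1 / 2) : ℝ) (1 / 2),
      HasDerivAt (fun u => δ⁻¹ * Real.arctan (u / δ)) (u ^ 2 + δ ^ 2)⁻¹ u := fun u _ => by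
    have h := (((Real.hasDerivAt_arctan (u / δ)).comp u ((hasDerivAt_id u).div_const δ))).const_mul
      δ⁻¹
    have hne : u ^ 2 + δ ^ 2 ≠ 0 := by positivity
    refine h.congr_deriv ?_
    field_simp
    ring
  rw [intervalIntegral.integral_eq_sub_of_hasDerivAt hd (by
    refine (Continuous.inv₀ (by fun_prop) fun u => ?_).intervalIntegrable _ _
    positivity)]
  have h1 := Real.arctan_lt_pi_div_two (1 / 2 / δ)
  have h2 := Real.neg_pi_div_two_lt_arctan (-(1 / 2) / δ)
  rw [← mul_sub, inv_mul_eq_div]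
  exact div_le_div_of_nonneg_right (by linarith) hδ.le

theorem intervalIntegrable_of_bounded {f : ℝ → ℝ} (hf : Measurable f) {M : ℝ}
    (hM : ∀ u, |f u| ≤ M) (a b : ℝ) : IntervalIntegrable f volume a b :=
  IntervalIntegrable.mono_fun' (intervalIntegrable_const (c := M)) hf.aestronglyMeasurable
    (Filter.Eventually.of_forall fun u => by simpa using hM u)

/-- A function large near `0` has a large smoothed value. -/
theorem le_smoothed {g : ℝ → ℝ} (hg : Measurable g) {M L δ : ℝ} (hδ : 0 < δ)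
    (hM : ∀ u, |g u| ≤ M) (hL : ∀ u, |u| ≤ δ → L ≤ g u) (hLM : 0 ≤ L + M) (H : ℕ)
    (hw : Real.pi / δ ≤ ((H : ℝ) + 1) / 2) :
    L - (L + M) / 4 ≤ ∫ u in (-(1 / 2) : ℝ)..(1 / 2), g u * fejer H u := by
  have hK := (continuous_fejer H).intervalIntegrable (μ := volume) (-(1 / 2) : ℝ) (1 / 2)
  have hinv : IntervalIntegrable (fun u : ℝ => (u ^ 2 + δ ^ 2)⁻¹) volume (-(1 / 2)) (1 / 2) := by
    refine (Continuous.inv₀ (by fun_prop) fun u => ?_).intervalIntegrable _ _
    positivity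
  have hgK : IntervalIntegrable (fun u => g u * fejer H u) volume (-(1 / 2)) (1 / 2) :=
    (intervalIntegrable_of_bounded hg hM _ _).mul_continuousOn (continuous_fejer H).continuousOn
  set c := (L + M) * (2 * ((H : ℝ) + 1))⁻¹ with hc
  have hc0 : 0 ≤ c := by positivity
  have key : ∫ u in (-(1 / 2) : ℝ)..(1 / 2), (L * fejer H u - c * (u ^ 2 + δ ^ 2)⁻¹) ≤
      ∫ u in (-(1 / 2) : ℝ)..(1 / 2), g u * fejer H u := by
    refine intervalIntegral.integral_mono_on (by norm_num) ((hK.const_mul L).sub (hinv.const_mul c))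
      hgK fun u hu => ?_
    have hu2 : |u| ≤ 1 / 2 := abs_le.2 hu
    rcases le_or_gt |u| δ with h | h
    · have h1 := mul_le_mul_of_nonneg_right (hL u h) (fejer_nonneg H u)
      have : 0 ≤ c * (u ^ 2 + δ ^ 2)⁻¹ := by positivity
      linarith
    · have h1 := mul_le_mul_of_nonneg_right (neg_le_of_abs_le (hM u)) (fejer_nonneg H u)
      have h2 := mul_le_mul_of_nonneg_left (fejer_le hu2 hδ.le h (H := H)) hLM
      rw [mul_inv, ← mul_assoc, ← hc] at h2
      linarith
  rw [intervalIntegral.integral_sub (hK.const_mul L) (hinv.const_mul c),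
    intervalIntegral.integral_const_mul, intervalIntegral.integral_const_mul, integral_fejer,
    mul_one] at key
  have h3 := mul_le_mul_of_nonneg_left ((integral_inv_sq_add_le hδ).trans hw) hc0
  have e : c * (((H : ℝ) + 1) / 2) = (L + M) / 4 := by
    rw [hc]
    field_simp
    ring
  linarith

/-- The Fourier coefficient of a translate of the sawtooth. -/
theorem norm_integral_saw_mul_eAdd (y : ℝ) {m : ℤ} (hm : m ≠ 0) :
    ∫ u in (-(1 / 2) : ℝ)..(1 / 2), ((Int.fract (y - u) - 1 / 2 : ℝ) : ℂ) * eAdd ((m : ℝ) * u) =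
      eAdd ((m : ℝ) * y) / (-(2 * (Real.pi : ℂ) * m * Complex.I)) := by
  set f : ℝ → ℂ := fun v => ((Int.fract v - 1 / 2 : ℝ) : ℂ) * eAdd ((m : ℝ) * (y - v)) with hf
  have hper : Function.Periodic f 1 := fun v => by
    simp only [hf, Int.fract_add_one]
    rw [show (m : ℝ) * (y - (v + 1)) = (m : ℝ) * (y - v) + ((-m : ℤ) : ℝ) by push_cast; ring,
      FA.ThreePrimes.eAdd_add_intCast]
  have e1 : (fun u : ℝ => ((Int.fract (y - u) - 1 / 2 : ℝ) : ℂ) * eAdd ((m : ℝ) * u)) =
      fun u => f (y - u) := by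
    funext u
    simp only [hf, sub_sub_cancel]
  rw [e1, intervalIntegral.integral_comp_sub_left f y,
    show y - -(1 / 2) = y - 1 / 2 + 1 by ring, hper.intervalIntegral_add_eq (y - 1 / 2) 0,
    zero_add]
  set c : ℂ := -(2 * (Real.pi : ℂ) * m * Complex.I) with hc
  have hc0 : c ≠ 0 := by simp [hc, Real.pi_ne_zero, hm, Complex.I_ne_zero]
  have hae : ∀ᵐ v ∂(volume : Measure ℝ), v ∈ Set.uIoc (0 : ℝ) 1 → f v =
      ((v : ℂ) - 1 / 2) * Complex.exp (c * v) * eAdd ((m : ℝ) * y) := by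
    filter_upwards [Measure.ae_ne volume (1 : ℝ)] with v hv1 hv
    rw [Set.uIoc_of_le zero_le_one] at hv
    simp only [hf]
    rw [Int.fract_eq_self.2 ⟨hv.1.le, lt_of_le_of_ne hv.2 hv1⟩,
      show (m : ℝ) * (y - v) = -((m : ℝ) * v) + (m : ℝ) * y by ring, eAdd_add,
      FA.ThreePrimes.eAdd, hc]
    push_cast
    ring_nf
  rw [intervalIntegral.integral_congr_ae hae, intervalIntegral.integral_mul_const]
  have hd : ∀ v ∈ Set.uIcc (0 : ℝ) 1, HasDerivAt
      (fun v : ℝ => (((v : ℂ) - 1 / 2) / c - 1 / c ^ 2) * Complex.exp (c * v))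
      (((v : ℂ) - 1 / 2) * Complex.exp (c * v)) v := fun v _ => by
    have h1 : HasDerivAt (fun v : ℝ => (v : ℂ)) 1 v := (hasDerivAt_id v).ofReal_comp
    have h2 := (((h1.sub_const (1 / 2 : ℂ)).div_const c).sub_const (1 / c ^ 2)).mul
      (h1.const_mul c).cexp
    refine h2.congr_deriv ?_
    field_simp
    ring
  rw [intervalIntegral.integral_eq_sub_of_hasDerivAt hd
    (Continuous.intervalIntegrable (by fun_prop) _ _)]
  have hexp : Complex.exp (c * (1 : ℝ)) = 1 := by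
    rw [Complex.exp_eq_one_iff]
    exact ⟨-m, by rw [hc]; push_cast; ring⟩
  rw [hexp]
  simp only [Complex.ofReal_zero, Complex.ofReal_one, mul_zero, Complex.exp_zero, mul_one]
  field_simp
  ring

end FA.Discrepancy
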