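import Fermat.Agent.Discrepancy.ErdosTuran
import Mathlib.Topology.EMetricSpace.VariationOnFromTo
import Mathlib.Data.Fin.Tuple.Sort
import Mathlib.MeasureTheory.Integral.IntervalIntegral.Basic

/-!
# Koksma's inequality

For a nondecreasing function the sorted points `z i` satisfy `(i + 1) / N - D ≤ z i ≤ i / N + D`,
so the mean is squeezed between the integrals of translates of the function. A function of bounded
variation is a difference of two nondecreasing ones.
-/

set_option autoImplicit false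

noncomputable section

namespace FA.Discrepancy

open Finset MeasureTheory

variable {x : ℕ → ℝ} {N : ℕ}

/-- The points `{x n}`, `n < N`, sorted. -/
theorem exists_sorted (x : ℕ → ℝ) (N : ℕ) {D : ℝ} (hN : 0 < N)
    (hD : ∀ t ∈ Set.Icc (0 : ℝ) 1, |(countIco x N 0 t : ℝ) / N - t| ≤ D) :
    ∃ z : Fin N → ℝ, (∀ i, z i ∈ Set.Ico (0 : ℝ) 1) ∧
      (∀ f : ℝ → ℝ, ∑ n ∈ range N, f (Int.fract (x n)) = ∑ i, f (z i)) ∧
      ∀ i : Fin N, z i ≤ (i : ℝ) / N + D ∧ ((i : ℝ) + 1) / N - D ≤ z i := by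
  obtain ⟨w, hw⟩ : ∃ w : Fin N → ℝ, w = fun i : Fin N => Int.fract (x i) := ⟨_, rfl⟩
  set z : Fin N → ℝ := w ∘ Tuple.sort w with hz
  have hmono : Monotone z := Tuple.monotone_sort w
  have hmem : ∀ i, z i ∈ Set.Ico (0 : ℝ) 1 := fun i => by
    simp only [hz, hw, Function.comp_apply]
    exact ⟨Int.fract_nonneg _, Int.fract_lt_one _⟩
  have hsum : ∀ f : ℝ → ℝ, ∑ n ∈ range N, f (Int.fract (x n)) = ∑ i, f (z i) := fun f => by
    rw [← Fin.sum_univ_eq_sum_range (fun n => f (Int.fract (x n))) N,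
      ← Equiv.sum_comp (Tuple.sort w)]
    simp [hz, hw]
  have hcount : ∀ t, (countIco x N 0 t : ℝ) = #(univ.filter fun i => z i < t) := fun t => by
    have := hsum fun y => if y < t then 1 else 0
    rw [sum_boole, sum_boole] at this
    rw [countIco, ← this]
    simp [Set.mem_Ico, Int.fract_nonneg]
  have hN' : (0 : ℝ) < N := Nat.cast_pos.2 hN
  refine ⟨z, hmem, hsum, fun i => ⟨?_, ?_⟩⟩
  · have h := (abs_le.1 (hD (z i) ⟨(hmem i).1, (hmem i).2.le⟩)).1
    have hc : (countIco x N 0 (z i) : ℝ) ≤ (i : ℝ) := by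
      rw [hcount, Nat.cast_le]
      exact (card_le_card (t := Iio i) fun j hj => mem_Iio.2 (lt_of_not_ge fun h' =>
        ((mem_filter.1 hj).2).not_ge (hmono h'))).trans_eq (Fin.card_Iio i)
    have := div_le_div_of_nonneg_right hc hN'.le
    linarith
  · suffices ∀ t, z i < t → ((i : ℝ) + 1) / N - D ≤ t from le_of_forall_gt_imp_ge_of_dense this
    intro t ht
    have h := (abs_le.1 (hD (min t 1) ⟨le_min ((hmem i).1.trans ht.le) zero_le_one,
      min_le_right _ _⟩)).2
    have hc : (i : ℝ) + 1 ≤ (countIco x N 0 (min t 1) : ℝ) := by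
      rw [hcount, ← Nat.cast_add_one, Nat.cast_le, ← Fin.card_Iic i]
      exact card_le_card fun j hj => mem_filter.2 ⟨mem_univ j,
        (hmono (mem_Iic.1 hj)).trans_lt (lt_min ht (hmem i).2)⟩
    have := div_le_div_of_nonneg_right hc hN'.le
    linarith [min_le_left t 1]

/-- Koksma's inequality for a nondecreasing function. -/
theorem koksma_monotone {f : ℝ → ℝ} (hf : MonotoneOn f (Set.Icc 0 1)) (hN : 0 < N) {D : ℝ}
    (hD0 : 0 ≤ D) (hD1 : D ≤ 1)
    (hD : ∀ t ∈ Set.Icc (0 : ℝ) 1, |(countIco x N 0 t : ℝ) / N - t| ≤ D) :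
    |(∑ n ∈ range N, f (Int.fract (x n))) / N - ∫ t in (0 : ℝ)..1, f t| ≤
      (f 1 - f 0) * D := by
  obtain ⟨z, hz, hsum, hq⟩ := exists_sorted x N hN hD
  have hN' : (0 : ℝ) < N := Nat.cast_pos.2 hN
  set U : ℝ → ℝ := fun t => f (min 1 (max 0 (t + D))) with hU
  set W : ℝ → ℝ := fun t => f (min 1 (max 0 (t - D))) with hW
  have hclamp : ∀ s : ℝ, min 1 (max 0 s) ∈ Set.Icc (0 : ℝ) 1 := fun s =>
    ⟨le_min zero_le_one (le_max_left _ _), min_le_left _ _⟩
  have hUm : Monotone U := fun s t h => hf (hclamp _) (hclamp _) (by gcongr)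
  have hWm : Monotone W := fun s t h => hf (hclamp _) (hclamp _) (by gcongr)
  have hfi : ∀ a b : ℝ, a ∈ Set.Icc (0 : ℝ) 1 → b ∈ Set.Icc (0 : ℝ) 1 →
      IntervalIntegrable f volume a b := fun a b ha hb =>
    (hf.mono (Set.uIcc_subset_Icc ha hb)).intervalIntegrable
  -- the mean between the two translates
  have hpiece : ∀ i : Fin N, (∫ t in ((i : ℝ) / N)..(((i : ℝ) + 1) / N), W t) ≤ f (z i) / N ∧
      f (z i) / N ≤ ∫ t in ((i : ℝ) / N)..(((i : ℝ) + 1) / N), U t := by
    intro i
    have hle : (i : ℝ) / N ≤ ((i : ℝ) + 1) / N :=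
      div_le_div_of_nonneg_right (by linarith) hN'.le
    have hconst : ∫ _t in ((i : ℝ) / N)..(((i : ℝ) + 1) / N), f (z i) = f (z i) / N := by
      rw [intervalIntegral.integral_const, smul_eq_mul]
      field_simp
      ring
    have hzi : z i ∈ Set.Icc (0 : ℝ) 1 := ⟨(hz i).1, (hz i).2.le⟩
    rw [← hconst]
    constructor
    · refine intervalIntegral.integral_mono_on hle hWm.intervalIntegrable intervalIntegrable_const
        fun t ht => hf (hclamp _) hzi ((min_le_right _ _).trans (max_le (hz i).1 ?_))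
      linarith [ht.2, (hq i).2]
    · refine intervalIntegral.integral_mono_on hle intervalIntegrable_const hUm.intervalIntegrable
        fun t ht => hf hzi (hclamp _) (le_min (hz i).2.le (le_max_of_le_right ?_))
      linarith [ht.1, (hq i).1]
  have hglue : ∀ F : ℝ → ℝ, Monotone F →
      ∑ i : Fin N, ∫ t in ((i : ℝ) / N)..(((i : ℝ) + 1) / N), F t = ∫ t in (0 : ℝ)..1, F t := by
    intro F hF
    have h := intervalIntegral.sum_integral_adjacent_intervals (f := F) (μ := volume)
      (a := fun k : ℕ => (k : ℝ) / N) (n := N) fun k _ => hF.intervalIntegrable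
    simp only [Nat.cast_zero, zero_div, div_self hN'.ne', Nat.cast_succ] at h
    rw [← h, ← Fin.sum_univ_eq_sum_range (fun k : ℕ => ∫ t in ((k : ℝ) / N)..(((k : ℝ) + 1) / N),
      F t) N]
  have hlow : (∫ t in (0 : ℝ)..1, W t) ≤ (∑ n ∈ range N, f (Int.fract (x n))) / N := by
    rw [hsum, sum_div, ← hglue W hWm]
    exact sum_le_sum fun i _ => (hpiece i).1
  have hupp : (∑ n ∈ range N, f (Int.fract (x n))) / N ≤ ∫ t in (0 : ℝ)..1, U t := by
    rw [hsum, sum_div, ← hglue U hUm]
    exact sum_le_sum fun i _ => (hpiece i).2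
  -- the integrals of the translates
  have hD' : D ∈ Set.Icc (0 : ℝ) 1 := ⟨hD0, hD1⟩
  have hD'' : 1 - D ∈ Set.Icc (0 : ℝ) 1 := ⟨by linarith, by linarith⟩
  have h0 : (0 : ℝ) ∈ Set.Icc (0 : ℝ) 1 := ⟨le_rfl, zero_le_one⟩
  have h1 : (1 : ℝ) ∈ Set.Icc (0 : ℝ) 1 := ⟨zero_le_one, le_rfl⟩
  have hUint : ∫ t in (0 : ℝ)..1, U t = (∫ t in D..1, f t) + D * f 1 := by
    rw [← intervalIntegral.integral_add_adjacent_intervals
      (hUm.intervalIntegrable (a := 0) (b := 1 - D)) hUm.intervalIntegrable]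
    congr 1
    · rw [intervalIntegral.integral_congr (g := fun t => f (t + D)) fun t ht => ?_,
        intervalIntegral.integral_comp_add_right f, zero_add, sub_add_cancel]
      rw [Set.uIcc_of_le hD''.1] at ht
      simp only [hU]
      rw [max_eq_right (by linarith [ht.1]), min_eq_right (by linarith [ht.2])]
    · rw [intervalIntegral.integral_congr (g := fun _ => f 1) fun t ht => ?_,
        intervalIntegral.integral_const, smul_eq_mul, sub_sub_cancel]
      rw [Set.uIcc_of_le hD''.2] at ht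
      simp only [hU]
      rw [min_eq_left (le_max_of_le_right (by linarith [ht.1]))]
  have hWint : ∫ t in (0 : ℝ)..1, W t = D * f 0 + ∫ t in (0 : ℝ)..(1 - D), f t := by
    rw [← intervalIntegral.integral_add_adjacent_intervals
      (hWm.intervalIntegrable (a := 0) (b := D)) hWm.intervalIntegrable]
    congr 1
    · rw [intervalIntegral.integral_congr (g := fun _ => f 0) fun t ht => ?_,
        intervalIntegral.integral_const, smul_eq_mul, sub_zero]
      rw [Set.uIcc_of_le hD0] at ht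
      simp only [hW]
      rw [max_eq_left (by linarith [ht.2]), min_eq_right zero_le_one]
    · rw [intervalIntegral.integral_congr (g := fun t => f (t - D)) fun t ht => ?_,
        intervalIntegral.integral_comp_sub_right f, sub_self]
      rw [Set.uIcc_of_le hD1] at ht
      simp only [hW]
      rw [max_eq_right (by linarith [ht.1]), min_eq_right (by linarith [ht.2])]
  have hsplit1 := intervalIntegral.integral_add_adjacent_intervals (hfi 0 D h0 hD') (hfi D 1 hD' h1)
  have hsplit2 := intervalIntegral.integral_add_adjacent_intervals (hfi 0 (1 - D) h0 hD'')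
    (hfi (1 - D) 1 hD'' h1)
  have hleft : D * f 0 ≤ ∫ t in (0 : ℝ)..D, f t := by
    have := intervalIntegral.integral_mono_on hD0 intervalIntegrable_const (hfi 0 D h0 hD')
      fun t ht => hf h0 ⟨ht.1, ht.2.trans hD1⟩ ht.1
    rwa [intervalIntegral.integral_const, smul_eq_mul, sub_zero] at this
  have hright : ∫ t in (1 - D)..1, f t ≤ D * f 1 := by
    have := intervalIntegral.integral_mono_on hD''.2 (hfi (1 - D) 1 hD'' h1)
      intervalIntegrable_const fun t ht => hf ⟨hD''.1.trans ht.1, ht.2⟩ h1 ht.2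
    rwa [intervalIntegral.integral_const, smul_eq_mul, sub_sub_cancel] at this
  rw [abs_le]
  constructor <;> linarith

/-- **Koksma's inequality.** -/
theorem koksma {f : ℝ → ℝ} (hf : BoundedVariationOn f (Set.Icc 0 1)) (hN : 0 < N) {D : ℝ}
    (hD : ∀ t ∈ Set.Icc (0 : ℝ) 1, |(countIco x N 0 t : ℝ) / N - t| ≤ D) :
    |(∑ n ∈ range N, f (Int.fract (x n))) / N - ∫ t in (0 : ℝ)..1, f t| ≤
      (eVariationOn f (Set.Icc 0 1)).toReal * D := by
  have h0 : (0 : ℝ) ∈ Set.Icc (0 : ℝ) 1 := ⟨le_rfl, zero_le_one⟩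
  have h1 : (1 : ℝ) ∈ Set.Icc (0 : ℝ) 1 := ⟨zero_le_one, le_rfl⟩
  have hN' : (0 : ℝ) < N := Nat.cast_pos.2 hN
  have hD0 : 0 ≤ D := (abs_nonneg _).trans (hD 0 h0)
  -- the bound may be replaced by `min D 1`
  have hD' : ∀ t ∈ Set.Icc (0 : ℝ) 1, |(countIco x N 0 t : ℝ) / N - t| ≤ min D 1 := fun t ht => by
    refine le_min (hD t ht) (abs_sub_le_iff.2 ⟨?_, ?_⟩)
    · have : (countIco x N 0 t : ℝ) / N ≤ 1 := div_le_one_of_le₀
        (Nat.cast_le.2 ((card_filter_le _ _).trans_eq (card_range N))) hN'.le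
      linarith [ht.1]
    · have : (0 : ℝ) ≤ (countIco x N 0 t : ℝ) / N := by positivity
      linarith [ht.2]
  have hl := hf.locallyBoundedVariationOn
  set v := variationOnFromTo f (Set.Icc 0 1) 0 with hv
  have hv0 : v 0 = 0 := by
    have := variationOnFromTo.add hl h0 h0 h0
    linarith
  have hv1 : v 1 = (eVariationOn f (Set.Icc 0 1)).toReal := by
    rw [hv, variationOnFromTo.eq_of_le _ _ zero_le_one, Set.inter_self]
  have hp : MonotoneOn (fun t => (v t + f t) / 2) (Set.Icc 0 1) := fun s hs t ht hst =>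
    div_le_div_of_nonneg_right (variationOnFromTo.add_self_monotoneOn hl h0 hs ht hst) two_pos.le
  have hq : MonotoneOn (fun t => (v t - f t) / 2) (Set.Icc 0 1) := fun s hs t ht hst =>
    div_le_div_of_nonneg_right (variationOnFromTo.sub_self_monotoneOn hl h0 hs ht hst) two_pos.le
  have hcp := koksma_monotone hp hN (le_min hD0 zero_le_one) (min_le_right _ _) hD'
  have hcq := koksma_monotone hq hN (le_min hD0 zero_le_one) (min_le_right _ _) hD'
  have hpi : IntervalIntegrable (fun t => (v t + f t) / 2) volume 0 1 :=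
    (hp.mono (Set.uIcc_subset_Icc h0 h1)).intervalIntegrable
  have hqi : IntervalIntegrable (fun t => (v t - f t) / 2) volume 0 1 :=
    (hq.mono (Set.uIcc_subset_Icc h0 h1)).intervalIntegrable
  have e : (∑ n ∈ range N, f (Int.fract (x n))) / N - ∫ t in (0 : ℝ)..1, f t =
      ((∑ n ∈ range N, (v (Int.fract (x n)) + f (Int.fract (x n))) / 2) / N -
        ∫ t in (0 : ℝ)..1, (v t + f t) / 2) -
      ((∑ n ∈ range N, (v (Int.fract (x n)) - f (Int.fract (x n))) / 2) / N -
        ∫ t in (0 : ℝ)..1, (v t - f t) / 2) := by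
    rw [sub_sub_sub_comm, ← sub_div, ← sum_sub_distrib, ← intervalIntegral.integral_sub hpi hqi]
    simp only [← sub_div, add_sub_sub_cancel, add_self_div_two]
  rw [e]
  refine (abs_sub _ _).trans ((add_le_add hcp hcq).trans ?_)
  rw [hv0, hv1]
  have hVD : (eVariationOn f (Set.Icc 0 1)).toReal * min D 1 ≤
      (eVariationOn f (Set.Icc 0 1)).toReal * D :=
    mul_le_mul_of_nonneg_left (min_le_left _ _) ENNReal.toReal_nonneg
  linarith

end FA.Discrepancy
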