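import Fermat.Agent.Discrepancy.ErdosTuran
import Mathlib.NumberTheory.Real.GoldenRatio

/-!
# The sequence `n α` for badly approximable `α`

If `c / q ≤ |q α - m|` the numbers `h α`, `h ≤ M`, have at most two of their distances to `ℤ` in
each interval of length `c / M`, so the Erdős-Turán sum is `O ((log N) ^ 2 / N)`.
-/

set_option autoImplicit false

noncomputable section

namespace FA.Discrepancy

open Finset
open FA.ThreePrimes (eAdd nearDist nearDist_le_abs_sub nearDist_nonneg norm_geom_le clip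
  norm_eAdd eAdd_zero eAdd_add)

variable {α c : ℝ}

/-- `c / q ≤ |q α - m|` for all `q ≥ 1` and all `m`. -/
def BadlyApproximable (α c : ℝ) : Prop := ∀ q : ℕ, 1 ≤ q → ∀ m : ℤ, c / q ≤ |(q : ℝ) * α - m|

theorem sum_inv_nearDist_le (hc : 0 < c) (hα : BadlyApproximable α c) {M : ℕ} (hM : 1 ≤ M) :
    ∑ h ∈ Icc 1 M, (nearDist ((h : ℝ) * α))⁻¹ ≤ 2 * M / c * (1 + Real.log (⌊(M : ℝ) / c⌋₊)) := by
  have hM' : (0 : ℝ) < M := Nat.cast_pos.2 hM
  obtain ⟨d, hddef⟩ : ∃ d, d = c / M := ⟨_, rfl⟩
  have hd : 0 < d := by rw [hddef]; positivity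
  obtain ⟨key, hkey⟩ : ∃ key : ℕ → ℕ, key = fun h : ℕ => ⌊nearDist ((h : ℝ) * α) / d⌋₊ := ⟨_, rfl⟩
  have hlow : ∀ h ∈ Icc 1 M, d ≤ nearDist ((h : ℝ) * α) := fun h hh => by
    rw [mem_Icc] at hh
    rw [hddef]
    exact (div_le_div_of_nonneg_left hc.le (Nat.cast_pos.2 hh.1) (Nat.cast_le.2 hh.2)).trans
      (hα h hh.1 _)
  have hmaps : ∀ h ∈ Icc 1 M, key h ∈ Icc 1 ⌊(M : ℝ) / c⌋₊ := fun h hh => by
    rw [mem_Icc, hkey]
    refine ⟨Nat.one_le_floor_iff _ |>.2 ((one_le_div hd).2 (hlow h hh)),
      Nat.floor_le_floor ?_⟩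
    rw [hddef, div_div_eq_mul_div]
    refine div_le_div_of_nonneg_right (mul_le_of_le_one_left hM'.le ?_) hc.le
    have := abs_sub_round ((h : ℝ) * α)
    unfold FA.ThreePrimes.nearDist
    linarith
  rw [← sum_fiberwise_of_maps_to hmaps]
  refine (sum_le_sum (g := fun k : ℕ => 2 * (M / c) * (k : ℝ)⁻¹) fun k hk => ?_).trans ?_
  · have hk0 : (0 : ℝ) < k := Nat.cast_pos.2 (mem_Icc.1 hk).1
    have hcard : #((Icc 1 M).filter fun h => key h = k) ≤ 2 := by
      classical
      -- two points with the same sign and key would differ by less than `d`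
      refine (card_le_card_of_injOn (t := (univ : Finset Bool))
        (fun h : ℕ => decide ((round ((h : ℝ) * α) : ℝ) ≤ (h : ℝ) * α)) (fun h _ => mem_univ _)
        ?_).trans_eq (by simp)
      intro h hh h' hh' heq
      simp only [decide_eq_decide] at heq
      rw [mem_coe, mem_filter] at hh hh'
      by_contra hne
      wlog hlt : h' < h generalizing h h'
      · exact this hh' hh heq.symm (Ne.symm hne) (by omega)
      have e1 := Nat.floor_le (a := nearDist ((h : ℝ) * α) / d)
        (div_nonneg (nearDist_nonneg _) hd.le)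
      have e2 := Nat.floor_le (a := nearDist ((h' : ℝ) * α) / d)
        (div_nonneg (nearDist_nonneg _) hd.le)
      have e3 := Nat.lt_floor_add_one (nearDist ((h : ℝ) * α) / d)
      have e4 := Nat.lt_floor_add_one (nearDist ((h' : ℝ) * α) / d)
      rw [hkey] at hh hh'
      simp only at hh hh'
      rw [hh.2] at e1 e3
      rw [hh'.2] at e2 e4
      rw [le_div_iff₀ hd] at e1 e2
      rw [div_lt_iff₀ hd] at e3 e4
      set u := (h : ℝ) * α with hu
      set u' := (h' : ℝ) * α with hu'
      have hclose : |(u - (round u : ℝ)) - (u' - (round u' : ℝ))| < d := by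
        unfold FA.ThreePrimes.nearDist at e1 e2 e3 e4
        by_cases hs : (round u : ℝ) ≤ u
        · have hs' : (round u' : ℝ) ≤ u' := heq.1 hs
          rw [abs_of_nonneg (sub_nonneg.2 hs)] at e1 e3
          rw [abs_of_nonneg (sub_nonneg.2 hs')] at e2 e4
          rw [abs_lt]
          constructor <;> linarith
        · have hs' : ¬(round u' : ℝ) ≤ u' := fun h => hs (heq.2 h)
          rw [abs_of_neg (sub_neg.2 (not_le.1 hs))] at e1 e3
          rw [abs_of_neg (sub_neg.2 (not_le.1 hs'))] at e2 e4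
          rw [abs_lt]
          constructor <;> linarith
      have h5 := hα (h - h') (by omega) (round u - round u')
      rw [Nat.cast_sub hlt.le] at h5
      have h6 : d ≤ c / ((h : ℝ) - h') := by
        rw [hddef]
        refine div_le_div_of_nonneg_left hc.le (sub_pos.2 (Nat.cast_lt.2 hlt)) ?_
        have := Nat.cast_le (α := ℝ) |>.2 (mem_Icc.1 hh.1).2
        have := Nat.cast_nonneg (α := ℝ) h'
        linarith
      push_cast at h5
      rw [show ((h : ℝ) - h') * α - ((round u : ℝ) - round u') =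
        (u - (round u : ℝ)) - (u' - (round u' : ℝ)) by rw [hu, hu']; ring] at h5
      linarith
    calc ∑ h ∈ (Icc 1 M).filter (fun h => key h = k), (nearDist ((h : ℝ) * α))⁻¹
        ≤ ∑ h ∈ (Icc 1 M).filter (fun h => key h = k), (k * d)⁻¹ := by
          refine sum_le_sum fun h hh => inv_anti₀ (mul_pos hk0 hd) ?_
          rw [mem_filter, hkey] at hh
          simp only at hh
          have e := Nat.floor_le (a := nearDist ((h : ℝ) * α) / d)
            (div_nonneg (nearDist_nonneg _) hd.le)
          rw [hh.2, le_div_iff₀ hd] at e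
          exact e
      _ ≤ 2 * (M / c) * (k : ℝ)⁻¹ := by
          rw [sum_const, nsmul_eq_mul, hddef, mul_inv, inv_div, mul_assoc 2, mul_comm ((k : ℝ)⁻¹)]
          exact mul_le_mul_of_nonneg_right (by exact_mod_cast hcard) (by positivity)
  · rw [← mul_sum, mul_div_assoc]
    refine mul_le_mul_of_nonneg_left ?_ (by positivity)
    have := harmonic_le_one_add_log ⌊(M : ℝ) / c⌋₊
    rw [harmonic_eq_sum_Icc] at this
    push_cast at this
    exact this

/-- The exponential means of `n α`. -/
theorem expMean_le {N : ℕ} (hc : 0 < c) (hα : BadlyApproximable α c) {h : ℕ}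
    (hh : 1 ≤ h) :
    expMean (fun n => (n : ℝ) * α) N h ≤ (nearDist ((h : ℝ) * α))⁻¹ / N := by
  have hh0 : (0 : ℝ) < h := Nat.cast_pos.2 hh
  have hpos : 0 < nearDist ((h : ℝ) * α) :=
    lt_of_lt_of_le (div_pos hc hh0) (hα h hh _)
  refine div_le_div_of_nonneg_right ?_ (Nat.cast_nonneg N)
  have e : ∑ n ∈ range N, eAdd ((h : ℝ) * ((n : ℝ) * α)) =
      eAdd (-((h : ℝ) * α)) * ∑ n ∈ Ioc 0 N, eAdd ((n : ℝ) * ((h : ℝ) * α)) := by
    rw [mul_sum, show Ioc 0 N = Ico (0 + 1) (N + 1) by ext; simp only [mem_Ioc, mem_Ico]; omega,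
      ← sum_Ico_add', ← range_eq_Ico]
    refine sum_congr rfl fun n _ => ?_
    rw [← eAdd_add]
    push_cast
    ring_nf
  rw [e, norm_mul, norm_eAdd, one_mul]
  refine (norm_geom_le _ 0 N).trans ?_
  rw [clip, if_neg hpos.ne', one_div, mul_inv]
  exact (min_le_right _ _).trans (mul_le_of_le_one_left (inv_nonneg.2 hpos.le) (by norm_num))

/-- **The discrepancy of `n α` for badly approximable `α`.** -/
theorem discrepancy_badlyApproximable (hc : 0 < c) (hα : BadlyApproximable α c) :
    ∃ C : ℝ, ∀ N : ℕ, 2 ≤ N → ∀ a b : ℝ, 0 ≤ a → a ≤ b → b ≤ 1 →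
      |(countIco (fun n => (n : ℝ) * α) N a b : ℝ) / N - (b - a)| ≤
        C * Real.log N ^ 2 / N := by
  set L := Real.log 2 with hL
  have hL0 : 0 < L := Real.log_pos one_lt_two
  set K := (1 + |Real.log c| + L) / L + 2 with hK
  refine ⟨100 / L ^ 2 + 2 * (8 / c) * K / L, fun N hN a b ha hab hb => ?_⟩
  have hN0 : 0 < N := by omega
  have hN' : (0 : ℝ) < N := Nat.cast_pos.2 hN0
  have hlogN : L ≤ Real.log N := Real.log_le_log two_pos (by exact_mod_cast hN)
  refine (erdos_turan hN0 N ha hab hb).trans ?_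
  set J := Nat.log 2 N with hJ
  have hdy : ∀ h ∈ Icc 1 N, Nat.log 2 h ∈ range (J + 1) := fun h hh => mem_range.2
    (Nat.lt_succ_of_le (Nat.log_mono_right (mem_Icc.1 hh).2))
  have hblock : ∀ j ∈ range (J + 1), ∑ h ∈ (Icc 1 N).filter (fun h => Nat.log 2 h = j),
      expMean (fun n => (n : ℝ) * α) N h / h ≤ 4 / c * (K * Real.log N) / N := by
    intro j hj
    have hjN : 2 ^ j ≤ N :=
      (Nat.pow_le_pow_right two_pos (Nat.le_of_lt_succ (mem_range.1 hj))).trans
        (Nat.pow_log_le_self 2 hN0.ne')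
    set P : ℕ := 2 ^ (j + 1) with hP
    have hP2 : (P : ℝ) = 2 * 2 ^ j := by rw [hP]; push_cast; ring
    have hp : (0 : ℝ) < 2 ^ j := by positivity
    calc ∑ h ∈ (Icc 1 N).filter (fun h => Nat.log 2 h = j),
          expMean (fun n => (n : ℝ) * α) N h / h
        ≤ ∑ h ∈ (Icc 1 N).filter (fun h => Nat.log 2 h = j),
          (nearDist ((h : ℝ) * α))⁻¹ / N / 2 ^ j := by
          refine sum_le_sum fun h hh => ?_
          rw [mem_filter, mem_Icc] at hh
          have h2 : 2 ^ j ≤ h := hh.2 ▸ Nat.pow_log_le_self 2 (by omega)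
          refine div_le_div₀ (by have := nearDist_nonneg ((h : ℝ) * α); positivity)
            (expMean_le hc hα hh.1.1) hp ?_
          exact_mod_cast h2
      _ ≤ (∑ h ∈ Icc 1 P, (nearDist ((h : ℝ) * α))⁻¹) / N / 2 ^ j := by
          rw [← sum_div, ← sum_div]
          refine div_le_div_of_nonneg_right (div_le_div_of_nonneg_right
            (sum_le_sum_of_subset_of_nonneg (fun h hh => ?_) fun h _ _ =>
              inv_nonneg.2 (nearDist_nonneg _)) hN'.le) hp.le
          rw [mem_filter, mem_Icc] at hh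
          rw [mem_Icc, hP, ← hh.2]
          exact ⟨hh.1.1, (Nat.lt_pow_succ_log_self one_lt_two h).le⟩
      _ ≤ (2 * P / c * (K * Real.log N)) / N / 2 ^ j := by
          refine div_le_div_of_nonneg_right (div_le_div_of_nonneg_right
            ((sum_inv_nearDist_le hc hα (Nat.one_le_two_pow)).trans
              (mul_le_mul_of_nonneg_left ?_ (by positivity))) hN'.le) hp.le
          have hfl : Real.log (⌊(P : ℝ) / c⌋₊) ≤ |Real.log c| + L + Real.log N := by
            rcases Nat.eq_zero_or_pos ⌊(P : ℝ) / c⌋₊ with h0 | h0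
            · rw [h0, Nat.cast_zero, Real.log_zero]
              linarith [abs_nonneg (Real.log c)]
            · refine (Real.log_le_log (Nat.cast_pos.2 h0) (Nat.floor_le (by positivity))).trans ?_
              have hPpos : (0 : ℝ) < P := by rw [hP2]; positivity
              have hPN : (P : ℝ) ≤ 2 * N := by
                rw [hP2]
                exact mul_le_mul_of_nonneg_left (by exact_mod_cast hjN) two_pos.le
              rw [Real.log_div hPpos.ne' hc.ne']
              have := Real.log_le_log hPpos hPN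
              rw [Real.log_mul two_ne_zero hN'.ne'] at this
              linarith [neg_abs_le (Real.log c)]
          have hA : 0 ≤ (1 + |Real.log c| + L) / L := by positivity
          have : 1 + |Real.log c| + L ≤ (1 + |Real.log c| + L) / L * Real.log N := by
            have h := mul_le_mul_of_nonneg_left hlogN hA
            rwa [div_mul_cancel₀ _ hL0.ne'] at h
          rw [hK, add_mul]
          linarith
      _ = 4 / c * (K * Real.log N) / N := by rw [hP2]; field_simp; ring
  have hsum : ∑ h ∈ Icc 1 N, expMean (fun n => (n : ℝ) * α) N h / h ≤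
      ((J : ℝ) + 1) * (4 / c * (K * Real.log N) / N) := by
    rw [← sum_fiberwise_of_maps_to hdy]
    exact (sum_le_card_nsmul _ _ _ hblock).trans_eq (by simp)
  have hJ2 : ((J : ℝ) + 1) ≤ 2 * (Real.log N / L) := by
    have h1 : (J : ℝ) * L ≤ Real.log N := by
      rw [hL, ← Real.log_pow]
      exact Real.log_le_log (by positivity) (by exact_mod_cast Nat.pow_log_le_self 2 hN0.ne')
    have h2 : (J : ℝ) ≤ Real.log N / L := (le_div_iff₀ hL0).2 h1
    have h3 : 1 ≤ Real.log N / L := (one_le_div hL0).2 hlogN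
    linarith
  have hlog0 : 0 ≤ Real.log N := hL0.le.trans hlogN
  have hK0 : 0 ≤ K := by positivity
  have h100 : 100 / ((N : ℝ) + 1) ≤ 100 / L ^ 2 * (Real.log N ^ 2 / N) := by
    calc 100 / ((N : ℝ) + 1) ≤ 100 / N :=
          div_le_div_of_nonneg_left (by norm_num) hN' (by linarith)
      _ ≤ 100 / L ^ 2 * (Real.log N ^ 2 / N) := by
          rw [div_mul_div_comm, div_le_div_iff₀ hN' (by positivity)]
          nlinarith [pow_le_pow_left₀ hL0.le hlogN 2]
  have hmain : 2 * (((J : ℝ) + 1) * (4 / c * (K * Real.log N) / N)) ≤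
      2 * (8 / c) * K / L * (Real.log N ^ 2 / N) := by
    refine (mul_le_mul_of_nonneg_left (mul_le_mul_of_nonneg_right hJ2
      (by positivity)) two_pos.le).trans_eq ?_
    field_simp
    ring
  rw [mul_div_assoc, add_mul]
  linarith

/-- The golden ratio is badly approximable. -/
theorem badlyApproximable_goldenRatio : BadlyApproximable Real.goldenRatio (1 / 4) := by
  intro q hq m
  have hq1 : (1 : ℝ) ≤ q := Nat.one_le_cast.2 hq
  by_contra hlt
  rw [not_le, div_div, lt_div_iff₀ (by positivity)] at hlt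
  set u := (q : ℝ) * Real.goldenRatio - m with hu
  set v := (q : ℝ) * Real.goldenConj - m with hv
  have huv : u * v = ((m * m - m * q - q * q : ℤ) : ℝ) := by
    rw [hu, hv]
    push_cast
    linear_combination (q : ℝ) ^ 2 * Real.goldenRatio_mul_goldenConj -
      (q : ℝ) * m * Real.goldenRatio_add_goldenConj
  have hne : (m * m - m * q - q * q : ℤ) ≠ 0 := by
    intro h0
    have h1 : (2 * m - q) * (2 * m - q) = 5 * ((q : ℤ) * q) := by linear_combination 4 * h0
    have hsq : IsSquare (5 : ℚ) := ⟨((2 * m - q : ℤ) : ℚ) / q, by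
      have hq0 : (q : ℚ) ≠ 0 := Nat.cast_ne_zero.2 (by omega)
      have := congrArg (fun z : ℤ => (z : ℚ)) h1
      push_cast at this ⊢
      field_simp
      linear_combination -this⟩
    rw [show (5 : ℚ) = ((5 : ℕ) : ℚ) by norm_num, Rat.isSquare_natCast_iff] at hsq
    exact (Nat.Prime.prime (by norm_num : Nat.Prime 5)).not_isSquare hsq
  have h1 : 1 ≤ |u * v| := by
    rw [huv, ← Int.cast_abs]
    exact_mod_cast Int.one_le_abs hne
  have hdiff : |v| ≤ |u| + 3 * q := by
    have h2 : |Real.goldenConj - Real.goldenRatio| ≤ 3 := by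
      rw [abs_le]
      constructor <;>
        linarith [Real.goldenRatio_lt_two, Real.one_lt_goldenRatio, Real.goldenConj_neg,
          Real.neg_one_lt_goldenConj]
    have h3 : v = u + (q : ℝ) * (Real.goldenConj - Real.goldenRatio) := by rw [hu, hv]; ring
    rw [h3]
    refine (abs_add_le _ _).trans (add_le_add le_rfl ?_)
    rw [abs_mul, Nat.abs_cast, mul_comm (3 : ℝ)]
    exact mul_le_mul_of_nonneg_left h2 (Nat.cast_nonneg q)
  rw [abs_mul] at h1
  have h4 := mul_le_mul_of_nonneg_left hdiff (abs_nonneg u)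
  have h5 : |u| ≤ 1 / 4 := by nlinarith [abs_nonneg u]
  nlinarith [abs_nonneg u, mul_le_mul h5 h5 (abs_nonneg u) (by norm_num)]

end FA.Discrepancy
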